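import Fermat.Agent.S59.TW.H659.Pkg

/-!
# Row S59 cell TW / row HARD: the FLAT Hecke package, without S33 and TW-STRICT (helper659)

`PkgFlatStatement` = `TW.PkgStatement` for the type `t = .flat` only (this is the package used by
row HARD: `S38.IA.HasIAModule` asks for a `HeckePkg p 𝒪 ρ̄ .flat Smin (Smin ∪ Piv ∪ Q)`).

`pkgFlat_of : S23Shape → S30Statement → S31Shape → S32Statement → S34Shape → PkgFlatStatement`

(no input from S33 / TW-STRICT: these are only used for the type `.sord`).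
-/

set_option autoImplicit false
set_option linter.unusedSectionVars false
set_option linter.style.haveILetI false
set_option synthInstance.maxHeartbeats 400000
set_option maxHeartbeats 1000000

open Polynomial IsLocalRing

namespace Fermat.Agent.S59.TW.H659

open Fermat.Agent.S59.Arch Fermat.Agent.S59.TW.H959 Fermat.Agent.S59.G4 Fermat.Agent.S31

/-- **PKG, flat type.**  Under `ResidualHyp`, for `ρ̄` flat at `p`: for every finite set of primes
`Σ ⊇ Smin` and every Frobenius character `θ` of `ρ̄` on the Hecke algebra of level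
`N_Σ = wilesLevel p .flat Smin Σ` away from `Σ`, the Hecke package of type `Σ` with residual
character `θ` exists. -/
def PkgFlatStatement : Prop :=
  ∀ (p : ℕ) [Fact p.Prime]
    (𝒪 : Type) [CommRing 𝒪] [IsDomain 𝒪] [IsDiscreteValuationRing 𝒪]
    [IsAdicComplete (maximalIdeal 𝒪) 𝒪] [Finite (ResidueField 𝒪)] [CharZero 𝒪]
    (ρbar : ResidualGaloisRep (ResidueField 𝒪)) (Smin : Finset ℕ)
    (_h : ResidualHyp p 𝒪 ρbar Smin)
    (_hflat : (GaloisRepAdic.ofResidualGaloisRep ρbar).IsFlatAt p)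
    (Sig : Finset ℕ) (_hSig : Smin ⊆ Sig) (_hSigP : ∀ q ∈ Sig, q.Prime)
    [NeZero (wilesLevel p .flat Smin Sig)]
    (θ : CuspForm.heckeAlgebra (wilesLevel p .flat Smin Sig) 2 (↑Sig : Set ℕ) →+* ResidueField 𝒪)
    (_hθ : G4.ResFrobCond ρbar θ),
    ∃ P : HeckePkg p 𝒪 ρbar .flat Smin Sig, P.θ = θ

/-- The flat package from the full leaf PKG. -/
theorem pkgFlat_of_pkg (h : PkgStatement) : PkgFlatStatement :=
  fun p _ 𝒪 _ _ _ _ _ _ ρbar Smin hR hflat Sig hSig hSigP _ θ hθ =>
    h p 𝒪 ρbar Smin hR .flat (Or.inl ⟨rfl, hflat⟩) Sig hSig hSigP θ hθ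

/-- **PKG, flat type**, from S23, S30, S31, S32, S34. -/
theorem pkgFlat_of (h23 : S23Shape) (h30 : S30Statement) (h31 : S31Shape)
    (h32 : Fermat.Agent.S32.S32Statement) (h34 : S34Shape) : PkgFlatStatement := by
  intro p _ 𝒪 _ _ _ _ _ _ ρbar Smin h _ Sig hSig hSigP _ θ hθ
  classical
  have hp : p.Prime := Fact.out
  have hpSig : p ∈ Sig := hSig h.hpSmin
  have hN0 : wilesLevel p .flat Smin Sig ≠ 0 := wilesLevel_ne_zero hp h.hSmin hSigP
  have hNS : ∀ q : ℕ, q.Prime → q ∣ wilesLevel p .flat Smin Sig → q ∈ Sig :=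
    fun q hq hqN => mem_of_prime_dvd_wilesLevel hp h.hSmin hSigP h.hpSmin hSig q hq hqN
  haveI hint : Fact (CuspForm.HasIntegralStructure (wilesLevel p .flat Smin Sig) 2) := ⟨h23 _⟩
  obtain ⟨H, hHπ⟩ := G4.g4_of h30 H547.red H109.points H532.traceFn H109.resStatement2
    p h.hp2 (wilesLevel p .flat Smin Sig) Sig hpSig hNS 𝒪 h.hp𝒪 θ ⟨ρbar, h.habs, hθ⟩
  have hres : H.ρ.residual.IsEquiv (ρbar.baseChangeAlong (ResidueField.map (algebraMap 𝒪
      (CuspForm.heckeLocal (wilesLevel p .flat Smin Sig) (↑Sig : Set ℕ) 𝒪 θ)))) :=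
    residual_isEquiv_of_frob h.hp2 Sig θ ρbar h.habs hθ h.hdet _ H.π H.residue_π H.ρ
      H.charpoly_frob
  have hpT : (p : CuspForm.heckeLocal (wilesLevel p .flat Smin Sig) (↑Sig : Set ℕ) 𝒪 θ) ∈
      maximalIdeal (CuspForm.heckeLocal (wilesLevel p .flat Smin Sig) (↑Sig : Set ℕ) 𝒪 θ) :=
    G4.natCast_mem_maximalIdeal_heckeLocal h.hp𝒪
  have hdetT : H.ρ.DetIsCyclotomic p :=
    Fermat.Agent.S59.H540.heckeGaloisRepDatum_detIsCyclotomic Sig H p hpT
  have hunr : ∀ q : ℕ, q.Prime → q ∉ Sig → H.ρ.IsUnramifiedAt q :=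
    fun q hq hqS => h31 hp h.hp𝒪 hpSig hNS H q hq hqS
  have hunip : ∀ q ∈ Smin, q.Prime → q ≠ p → H.ρ.IsUnipotentOnInertiaAt q := by
    intro q hqS hq hqp
    refine h34 hp h.hp𝒪 hpSig hNS H q hq hqp
      (dvd_wilesLevel_of_mem hp h.hSmin hSigP q (hSig hqS) hqp) ?_
    intro hd
    have h2 := (hq.pow_dvd_iff_le_factorization hN0).mp hd
    rw [factorization_wilesLevel hp h.hSmin hSigP,
      if_pos (Finset.mem_erase.mpr ⟨hqp, hqS⟩),
      if_neg (fun hh => (Finset.mem_sdiff.mp hh).2 hqS),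
      if_neg (fun hh => hqp hh.2)] at h2
    omega
  have hpc : pCond 𝒪 p .flat Sig H.ρ := by
    refine ⟨hdetT, ?_, hunr⟩
    refine h32 hp h.hp2 h.hp𝒪 ?_ hpSig hNS H
    intro hd
    have h2 := (hp.pow_dvd_iff_le_factorization hN0 (k := 1)).mp (by simpa using hd)
    rw [factorization_wilesLevel hp h.hSmin hSigP,
      if_neg (Finset.notMem_erase p Smin),
      if_neg (fun hh => (Finset.mem_sdiff.mp hh).2 h.hpSmin),
      if_neg (fun hh => hh.1 rfl)] at h2
    omega
  exact ⟨{ integral := hint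
           θ := θ
           isLocalRing := inferInstance
           isNoetherianRing := inferInstance
           isAdicComplete := inferInstance
           isLocalHom := inferInstance
           finite := inferInstance
           free := inferInstance
           H := H
           hπ := hHπ
           hres := hres
           hcond := ⟨hpc, hunip⟩ }, rfl⟩

end Fermat.Agent.S59.TW.H659
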