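import Fermat.Agent.S59.TW.H659.PkgMain
import Fermat.Agent.S59.NMP.H935.OrdDatum

/-!
# Row S59, cell NMP, leaf DATUM with the landed rows plugged in (helper659)

`ordDatum659 : NMP.OrdDatumStatement` — UNCONDITIONAL: `NMP.H935.ordDatum_of` (helper935) applied
to G4 (`G4.g4_of`, S30), S31, S33, S34.  S33 is taken from the realizer-free chain
`Clean/S33Final.lean` (see the collision note in `PkgMain.lean`); S30, S31, S34 are the plain-top
forms `s30Statement659`, `s31Shape`, `s34Shape` of `PkgMain.lean` (no statement module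
`Fermat/Agent/SNN.lean` of the rows S30-S34 is imported by this file or by `PkgMain.lean`).
-/

set_option autoImplicit false

namespace Fermat.Agent.S59.TW.H659

/-- **G4** — unconditional (S30, RED, POINTS, TRFN, RES2 are on main). -/
theorem g4Statement659 : Fermat.Agent.S59.G4.G4Statement :=
  Fermat.Agent.S59.G4.g4_of s30Statement659 Fermat.Agent.S59.G4.H547.red
    Fermat.Agent.S59.G4.H109.points Fermat.Agent.S59.G4.H532.traceFn
    Fermat.Agent.S59.G4.H109.resStatement2

/-- **Leaf DATUM of the cell NMP** — unconditional. -/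
theorem ordDatum659 : Fermat.Agent.S59.NMP.OrdDatumStatement :=
  Fermat.Agent.S59.NMP.H935.ordDatum_of g4Statement659
    (fun hp hp𝒪 hpS hNS H q hq hqS => s31Shape hp hp𝒪 hpS hNS H q hq hqS)
    (fun hp hp2 hp𝒪 hN hNS H hres =>
      Clean.s33Statement_clean659 hp hp2 hp𝒪 hN hNS H hres)
    (fun hp hp𝒪 => fun hpS hNS => fun H q hq hqp hqN hq2 =>
      s34Shape hp hp𝒪 hpS hNS H q hq hqp hqN hq2)

end Fermat.Agent.S59.TW.H659
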