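import Fermat.Agent.S59.TW.H659.PkgFlat
import Fermat.Agent.S59.H649.TWStrict
import Fermat.Agent.S23.Cap.Main
import Fermat.Agent.S30.Chain.FromT
import Fermat.Agent.S30.H694.TorsionRelOfNodes
import Fermat.Agent.S18.Mod.H216.NodeMod
import Fermat.Agent.S18.H438.NodeAlg
import Fermat.Agent.S31.H22.FinalS30
import Fermat.Agent.S59.TW.H659.Clean.S32
import Fermat.Agent.S59.TW.H659.Clean.S33Final
import Fermat.Agent.S34.K789.WallFinal
import Fermat.Agent.A2.Top.H96.WallNoSep
import Fermat.Agent.A2.Mod.H142.S2Final
import Fermat.Agent.A2.Mod.H372.S3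
import Fermat.Agent.A2.Mod.H96.L12
import Fermat.Agent.A2.Mod.H216.GoodRedAll

/-!
# Row S59 cell TW / row HARD: the Hecke package with the landed rows plugged in (helper659)

* `pkg : TW.PkgStatement` — UNCONDITIONAL (S23, S30, S31, S32, S33, S34 and TW-STRICT are on main);
* `pkgFlat : PkgFlatStatement` — UNCONDITIONAL, the flat type (row HARD);
* `pkg_of_s33 : S33Statement → TW.PkgStatement`.

PLAIN TOPS ONLY (QA helper33 / helper13, lead ruling on packed replacements): this file imports
NO statement module `Fermat/Agent/SNN.lean` (they may be replaced by packed versions); the short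
proof terms below are the bodies of the landed `S23.result`, `S30.result`, `S31.result`,
`S34.result`, applied to the plain tops of these rows.

COLLISION NOTE (`coord/CI-realized-collisions-helper475.md`): the closure of this file contains
`S31/H22/PowTr.lean` (through `S31/H22`, `S34/K789`, `S59/G4`), so S32 and S33 are taken from the
realizer-free chains `Clean/S32.lean`, `Clean/S33Final.lean` and NOT from
`Fermat/Agent/S32.lean`, `Fermat/Agent/S33.lean` (`S31/H982/TracePow.lean`).
-/

set_option autoImplicit false

namespace Fermat.Agent.S59.TW.H659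

theorem s23Shape : S23Shape := fun N _ => Fermat.Agent.S23.Cap.hasIntegralStructure N 2

theorem s30Statement659 : Fermat.Agent.S31.S30Statement := by
  intro p _ N _ S hpS hNS 𝒪' _ _ _ _ _ _ hp𝒪' χ
  exact Fermat.Agent.S30.Chain.result_of_T
    (Fermat.Agent.S30.H694.torsionRelations_of_nodes
      (fun M _ _ _ hℓM A hA => Fermat.Agent.S18.Mod.H216.node_mod M hℓM A hA)
      (fun M => Fermat.Agent.S18.H438.node_alg M))
    p N S hpS hNS 𝒪' hp𝒪' χ

theorem s31Shape : S31Shape :=
  fun hp hp𝒪 hpS hNS H q hq hqS =>
    Fermat.Agent.S31.H22.result_of_S30 s30Statement659 hp hp𝒪 hpS hNS H q hq hqS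

theorem s32Statement659 : Fermat.Agent.S32.S32Statement := Clean.s32Statement_clean659

theorem s34Shape : S34Shape :=
  fun hp hp𝒪 => fun hpS hNS => fun H q hq hqp hqN hq2 =>
    Fermat.Agent.S34.K789.result_of_wall
      (Fermat.Agent.A2.Top.H96.wall_noSep
        (fun P E M q _ _ w => Fermat.Agent.A2.Mod.H142.s2 P E M q w)
        (fun P E M q _ _ w => Fermat.Agent.A2.Mod.H372.s3_of_leaves P E M q w
          (Fermat.Agent.A2.Mod.H751.frickeExists E)
          (Fermat.Agent.A2.Mod.H751.frickeCompat E M q)
          (Fermat.Agent.A2.Mod.H900.frickeStable P E M q w)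
          (Fermat.Agent.A2.Mod.H31.deg E M q)
          (Fermat.Agent.A2.Mod.H378.resInf P E M q w)
          (Fermat.Agent.A2.Mod.H96.kron P E M q w)
          (Fermat.Agent.A2.Mod.H142.s2 P E M q w))
        Fermat.Agent.A2.Top.H216.goodRedStatement)
      hp hp𝒪 hpS hNS H q hq hqp hqN hq2

/-- **PKG, flat type** — unconditional. -/
theorem pkgFlat : PkgFlatStatement :=
  pkgFlat_of s23Shape s30Statement659 s31Shape s32Statement659 s34Shape

/-- **PKG** from the frozen S33. -/
theorem pkg_of_s33 (h33 : Fermat.Agent.S33.S33Statement) : PkgStatement :=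
  pkg_of s23Shape s30Statement659 s31Shape s32Statement659 h33 s34Shape
    Fermat.Agent.S59.H649.twStrict

/-- **PKG** — unconditional. -/
theorem pkg : PkgStatement := pkg_of_s33 Clean.s33Statement_clean659

end Fermat.Agent.S59.TW.H659
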