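import Fermat.Agent.S59.TW.Spec
import Fermat.Agent.S59.G4.Assembly
import Fermat.Agent.S59.G4.H547.Red
import Fermat.Agent.S59.G4.H109.Points
import Fermat.Agent.S59.G4.H532.TraceFn
import Fermat.Agent.S59.G4.H109.Res2
import Fermat.Agent.S59.Arch.WilesLevel
import Fermat.Agent.S59.H659.Ord
import Fermat.Agent.S59.H601.ResidualBC
import Fermat.Agent.S59.H649.StrictSpec
import Fermat.Agent.S33.Spec

/-!
# Row S59, cell TW, LAYER 2, leaf PKG (helper659)

`pkg_of : S23Shape → S30Statement → S31Shape → S32Statement → S33Statement → S34Shape →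
  TWStrictStatement → TW.PkgStatement`

The Hecke package `P_Σ` over a given Frobenius character `θ` of level `N_Σ`:

* the datum `H` : `G4.g4_of` (RED, POINTS, TRFN, RES2 are on main);
* `hres` : `residual_isEquiv_of_frob` (Chebotarev `H109.charpoly_residual_eq` + rigidity
  `H307.isEquiv_of_trace_eq` over the residue field);
* `hcond` : determinant (`H540`), unramified outside `Σ` (S31), unipotent at `Smin ∖ {p}` (S34),
  at `p`: flat (S32) resp. ordinary (S33) + TW-STRICT (`H649`).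

The frozen statements S23, S31, S34 enter as hypotheses (`S23Shape`, `S31Shape`, `S34Shape` are
their statements verbatim), so that the closure of this file stays small.
-/

set_option autoImplicit false
set_option linter.unusedSectionVars false
set_option linter.style.haveILetI false
set_option synthInstance.maxHeartbeats 400000
set_option maxHeartbeats 1000000

open Polynomial IsLocalRing

namespace Fermat.Agent.S59.TW.H659

open Fermat.Agent.S59.Arch Fermat.Agent.S59.TW.H959 Fermat.Agent.S59.G4 Fermat.Agent.S31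

/-! ## The frozen statements used, as `Prop`s -/

/-- The frozen statement S23, as a `Prop`. -/
def S23Shape : Prop :=
  ∀ (N : ℕ) [NeZero N], CuspForm.HasIntegralStructure N 2

/-- The frozen statement S31, as a `Prop`. -/
def S31Shape : Prop :=
  ∀ {p : ℕ} {N : ℕ} [NeZero N] {S : Finset ℕ}
    {𝒪 : Type} [CommRing 𝒪] [IsDomain 𝒪] [IsDiscreteValuationRing 𝒪]
    [IsAdicComplete (IsLocalRing.maximalIdeal 𝒪) 𝒪]
    {θ : CuspForm.heckeAlgebra N 2 (↑S : Set ℕ) →+* IsLocalRing.ResidueField 𝒪}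
    {T : Type} [CommRing T] [IsLocalRing T] [IsNoetherianRing T]
    [IsAdicComplete (IsLocalRing.maximalIdeal T) T] [Algebra 𝒪 T] [IsLocalHom (algebraMap 𝒪 T)]
    [Module.Finite 𝒪 T] [Module.Free 𝒪 T]
    (_hp : p.Prime) (_hp𝒪 : (p : 𝒪) ∈ IsLocalRing.maximalIdeal 𝒪) (_hpS : p ∈ S)
    (_hNS : ∀ q : ℕ, q.Prime → q ∣ N → q ∈ S)
    (H : CuspForm.HeckeGaloisRepDatum N (↑S : Set ℕ) 𝒪 θ T)
    (q : ℕ) (_hq : q.Prime) (_hqS : q ∉ S),
    H.ρ.IsUnramifiedAt q

/-- The frozen statement S34, as a `Prop`. -/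
def S34Shape : Prop :=
  ∀ {𝒪 : Type} [CommRing 𝒪] [IsDomain 𝒪] [IsDiscreteValuationRing 𝒪]
    [IsAdicComplete (maximalIdeal 𝒪) 𝒪] [Finite (ResidueField 𝒪)] [CharZero 𝒪]
    {p : ℕ} (_hp : p.Prime) (_hp𝒪 : (p : 𝒪) ∈ maximalIdeal 𝒪)
    {N : ℕ} [NeZero N] {S : Finset ℕ} (_hpS : p ∈ S)
    (_hNS : ∀ q : ℕ, q.Prime → q ∣ N → q ∈ S)
    {θ : CuspForm.heckeAlgebra N 2 (↑S : Set ℕ) →+* ResidueField 𝒪}
    {T : Type} [CommRing T] [IsLocalRing T] [IsNoetherianRing T]
    [IsAdicComplete (maximalIdeal T) T] [Algebra 𝒪 T] [IsLocalHom (algebraMap 𝒪 T)]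
    [Module.Finite 𝒪 T] [Module.Free 𝒪 T]
    (H : CuspForm.HeckeGaloisRepDatum N (↑S : Set ℕ) 𝒪 θ T)
    (q : ℕ) (_hq : q.Prime) (_hqp : q ≠ p) (_hqN : q ∣ N) (_hq2 : ¬ q ^ 2 ∣ N),
    H.ρ.IsUnipotentOnInertiaAt q

/-! ## The residual representation (Brauer–Nesbitt by rigidity) -/

section Res

variable {p : ℕ} [Fact p.Prime]

/-- **Residual equivalence.**  Let `ρ̄` over `k` be absolutely irreducible with cyclotomic
determinant (`p` odd) and Frobenius character `θ`, and let `ρ` over the local ring `A` have the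
Frobenius characteristic polynomials given by `φ ≡ ι ∘ θ`.  Then `ρ.residual ≅ ρ̄ ⊗_ι κ(A)`. -/
theorem residual_isEquiv_of_frob (hp2 : p ≠ 2) {N : ℕ} [NeZero N] (S : Finset ℕ)
    {k : Type} [Field k]
    (θ : CuspForm.heckeAlgebra N 2 (↑S : Set ℕ) →+* k) (ρbar : ResidualGaloisRep k)
    (habs : ρbar.IsAbsolutelyIrreducible) (hθ : ResFrobCond ρbar θ)
    (hdet : (GaloisRepAdic.ofResidualGaloisRep ρbar).DetIsCyclotomic p)
    {A : Type} [CommRing A] [IsLocalRing A] (ι : k →+* ResidueField A)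
    (φ : CuspForm.heckeAlgebra N 2 (↑S : Set ℕ) →+* A)
    (hφ : ∀ t, residue A (φ t) = ι (θ t))
    (ρ : GaloisRepAdic A) (hρ : FrobCond ρ φ) :
    ρ.residual.IsEquiv (ρbar.baseChangeAlong ι) := by
  classical
  set ρ₁ : GaloisRepAdic (ResidueField A) :=
    GaloisRepAdic.ofResidualGaloisRep ρ.residual with hρ₁
  set ρ₂ : GaloisRepAdic (ResidueField A) :=
    GaloisRepAdic.ofResidualGaloisRep (ρbar.baseChangeAlong ι) with hρ₂
  -- `p = 0` in `k` and in the residue field
  have hpk : (p : k) = 0 := by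
    have h := hdet.1
    rwa [IsLocalRing.maximalIdeal_eq_bot, Ideal.mem_bot] at h
  have hpK : (p : ResidueField A) ∈ maximalIdeal (ResidueField A) := by
    have : (p : ResidueField A) = 0 := by rw [← map_natCast ι, hpk, map_zero]
    rw [this]
    exact Ideal.zero_mem _
  have h2 : IsUnit (2 : ResidueField A) := G4.isUnit_two_of_mem hp2 hpK
  have h2k : (2 : k) ≠ 0 := by
    intro h0
    have : (2 : ResidueField A) = 0 := by
      rw [← map_ofNat ι 2, h0, map_zero]
    rw [this] at h2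
    exact not_isUnit_zero h2
  -- characteristic polynomials
  have hch₁ : ∀ g, LinearMap.charpoly (ρ₁.ρ g) = (LinearMap.charpoly (ρbar.ρ g)).map ι :=
    fun g => H109.charpoly_residual_eq S θ ρbar hθ ι φ hφ ρ hρ g
  have hch₂ : ∀ g, LinearMap.charpoly (ρ₂.ρ g) = (LinearMap.charpoly (ρbar.ρ g)).map ι := by
    intro g
    letI : Algebra k (ResidueField A) := ι.toAlgebra
    have h1 : LinearMap.charpoly (ρ₂.ρ g)
        = LinearMap.charpoly ((ρbar.ρ g).baseChange (ResidueField A)) := rfl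
    rw [h1, LinearMap.charpoly_baseChange]
    rfl
  -- traces
  let b₀ : Module.Basis (Fin 2) k ρbar.V := Module.finBasisOfFinrankEq k ρbar.V ρbar.finrank_eq
  let b₁ : Module.Basis (Fin 2) (ResidueField A) ρ₁.V :=
    Module.finBasisOfFinrankEq (ResidueField A) ρ₁.V ρ₁.finrank_eq
  let b₂ : Module.Basis (Fin 2) (ResidueField A) ρ₂.V :=
    Module.finBasisOfFinrankEq (ResidueField A) ρ₂.V ρ₂.finrank_eq
  have htr₁ : ∀ g, ρ₁.trace g = ι (LinearMap.trace k ρbar.V (ρbar.ρ g)) := by
    intro g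
    show LinearMap.trace (ResidueField A) ρ₁.V (ρ₁.ρ g) = _
    rw [H109.trace_eq_neg_coeff_charpoly b₁, H109.trace_eq_neg_coeff_charpoly b₀, hch₁,
      Polynomial.coeff_map, map_neg]
  have htr₂ : ∀ g, ρ₂.trace g = ι (LinearMap.trace k ρbar.V (ρbar.ρ g)) := by
    intro g
    show LinearMap.trace (ResidueField A) ρ₂.V (ρ₂.ρ g) = _
    rw [H109.trace_eq_neg_coeff_charpoly b₂, H109.trace_eq_neg_coeff_charpoly b₀, hch₂,
      Polynomial.coeff_map, map_neg]
  -- oddness
  have hdc : LinearMap.det ((GaloisRepAdic.ofResidualGaloisRep ρbar).ρ complexConjugation) = -1 :=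
    G4.det_complexConjugation (GaloisRepAdic.ofResidualGaloisRep ρbar) p hdet
  have htc : (GaloisRepAdic.ofResidualGaloisRep ρbar).trace complexConjugation = 0 :=
    G4.trace_eq_zero_of_involution _ complexConjugation complexConjugation_mul_self hdc
  have hc : ρ₁.trace complexConjugation = 0 := by
    rw [htr₁]
    have : LinearMap.trace k ρbar.V (ρbar.ρ complexConjugation) = 0 := htc
    rw [this, map_zero]
  -- irreducibility
  have hFrob₁ : FrobCond ρ₁ ((residue A).comp φ) := by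
    intro ℓ hℓ hℓN hℓS B hB σ hσ
    have c1 := hρ ℓ hℓ hℓN hℓS B hB σ hσ
    have hres : LinearMap.charpoly (ρ₁.ρ σ)
        = LinearMap.charpoly ((ρ.ρ σ).baseChange (ResidueField A)) := rfl
    rw [hres, LinearMap.charpoly_baseChange, c1]
    simp only [Polynomial.map_add, Polynomial.map_sub, Polynomial.map_mul, Polynomial.map_pow,
      Polynomial.map_X, Polynomial.map_C, map_natCast]
    rw [IsLocalRing.ResidueField.algebraMap_eq, Polynomial.map_natCast, RingHom.comp_apply]
  have hirr : ρ₁.residual.IsIrreducible :=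
    (H109.resStatement2 N S k h2k θ ⟨ρbar, habs, hθ⟩ (ResidueField A)
      ((residue (ResidueField A)).comp ι) ((residue A).comp φ)
      (fun t => by rw [RingHom.comp_apply, RingHom.comp_apply, hφ]) ρ₁ hFrob₁).2
  obtain ⟨e⟩ := Fermat.Agent.S59.H307.isEquiv_of_trace_eq h2 ρ₁ ρ₂
    (fun σ => by rw [htr₁, htr₂]) complexConjugation complexConjugation_mul_self hc hirr
  exact ⟨⟨e.toLinearEquiv, e.map_apply⟩⟩

end Res

/-! ## Flatness descends along an extension of finite fields -/

/-- Descent of flatness along an extension of finite fields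
(`H601.isFlatAt_ofResidual_baseChangeAlong_iff601` over a general finite base field). -/
theorem isFlatAt_of_baseChangeAlong (p : ℕ) [Fact p.Prime]
    {k : Type} [Field k] [Finite k] (ρbar : ResidualGaloisRep k)
    {K : Type} [Field K] [Finite K] (ι : k →+* K)
    (h : (GaloisRepAdic.ofResidualGaloisRep (ρbar.baseChangeAlong ι)).IsFlatAt p) :
    (GaloisRepAdic.ofResidualGaloisRep ρbar).IsFlatAt p := by
  have hι : IsLocalHom ι := inferInstance
  have hSub := Fermat.Agent.S59.H659.hopfSubquot_closed p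
  have hfin : ∀ J : Ideal K, Finite (K ⧸ J) := fun J =>
    Finite.of_surjective (Ideal.Quotient.mk J) Ideal.Quotient.mk_surjective
  have hresk : Finite (IsLocalRing.ResidueField k) :=
    Finite.of_surjective (IsLocalRing.residue k) IsLocalRing.residue_surjective
  have hdef : GaloisRepAdic.ofResidualGaloisRep (ρbar.baseChangeAlong ι) =
      (GaloisRepAdic.ofResidualGaloisRep ρbar).baseChangeAlong ι hι := rfl
  rw [hdef, Fermat.Agent.S59.H779.isFlatAt_iff_flatLevel] at h
  rw [Fermat.Agent.S59.H779.isFlatAt_iff_flatLevel]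
  obtain ⟨-, h⟩ := h
  refine ⟨hresk, fun I _ => ?_⟩
  rcases Ideal.eq_bot_or_top I with rfl | rfl
  · have h1 := Fermat.Agent.S59.H779.FlatLevel.comap hSub ι hι (h ⊥ (hfin ⊥))
    have h2 : (⊥ : Ideal K).comap ι = ⊥ := by
      rw [← RingHom.ker_eq_comap_bot]
      exact (RingHom.injective_iff_ker_eq_bot ι).1 ι.injective
    rwa [h2] at h1
  · have h1 := Fermat.Agent.S59.H779.FlatLevel.comap hSub ι hι (h ⊤ (hfin ⊤))
    rwa [Ideal.comap_top] at h1

/-! ## The condition at `p`, by type -/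

theorem pCond_flat_iff {𝒪 : Type} [CommRing 𝒪] {p : ℕ} {t : PType} (ht : t = .flat)
    {Sig : Finset ℕ} {A : Type} [CommRing A] [IsLocalRing A] [Algebra 𝒪 A]
    (ρ : GaloisRepAdic A) :
    pCond 𝒪 p t Sig ρ ↔ GaloisRep.flatCondition 𝒪 p Sig ρ := by
  subst ht
  exact Iff.rfl

theorem pCond_sord_iff {𝒪 : Type} [CommRing 𝒪] {p : ℕ} {t : PType} (ht : t = .sord)
    {Sig : Finset ℕ} {A : Type} [CommRing A] [IsLocalRing A] [Algebra 𝒪 A]
    (ρ : GaloisRepAdic A) :
    pCond 𝒪 p t Sig ρ ↔ GaloisRep.strictOrdinaryCondition 𝒪 p Sig ρ := by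
  subst ht
  exact Iff.rfl

/-! ## The leaf PKG -/

/-- **PKG.** -/
theorem pkg_of (h23 : S23Shape) (h30 : S30Statement) (h31 : S31Shape)
    (h32 : Fermat.Agent.S32.S32Statement) (h33 : Fermat.Agent.S33.S33Statement)
    (h34 : S34Shape) (hstrict : Fermat.Agent.S59.H649.TWStrictStatement) :
    PkgStatement := by
  intro p _ 𝒪 _ _ _ _ _ _ ρbar Smin h t ht Sig hSig hSigP _ θ hθ
  classical
  have hp : p.Prime := Fact.out
  have hpSig : p ∈ Sig := hSig h.hpSmin
  have hN0 : wilesLevel p t Smin Sig ≠ 0 := wilesLevel_ne_zero hp h.hSmin hSigP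
  have hNS : ∀ q : ℕ, q.Prime → q ∣ wilesLevel p t Smin Sig → q ∈ Sig :=
    fun q hq hqN => mem_of_prime_dvd_wilesLevel hp h.hSmin hSigP h.hpSmin hSig q hq hqN
  haveI hint : Fact (CuspForm.HasIntegralStructure (wilesLevel p t Smin Sig) 2) := ⟨h23 _⟩
  obtain ⟨H, hHπ⟩ := G4.g4_of h30 H547.red H109.points H532.traceFn H109.resStatement2
    p h.hp2 (wilesLevel p t Smin Sig) Sig hpSig hNS 𝒪 h.hp𝒪 θ ⟨ρbar, h.habs, hθ⟩
  -- the residual representation
  have hres : H.ρ.residual.IsEquiv (ρbar.baseChangeAlong (ResidueField.map (algebraMap 𝒪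
      (CuspForm.heckeLocal (wilesLevel p t Smin Sig) (↑Sig : Set ℕ) 𝒪 θ)))) :=
    residual_isEquiv_of_frob h.hp2 Sig θ ρbar h.habs hθ h.hdet _ H.π H.residue_π H.ρ
      H.charpoly_frob
  -- determinant, ramification
  have hpT : (p : CuspForm.heckeLocal (wilesLevel p t Smin Sig) (↑Sig : Set ℕ) 𝒪 θ) ∈
      maximalIdeal (CuspForm.heckeLocal (wilesLevel p t Smin Sig) (↑Sig : Set ℕ) 𝒪 θ) :=
    G4.natCast_mem_maximalIdeal_heckeLocal h.hp𝒪
  have hdetT : H.ρ.DetIsCyclotomic p :=
    Fermat.Agent.S59.H540.heckeGaloisRepDatum_detIsCyclotomic Sig H p hpT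
  have hunr : ∀ q : ℕ, q.Prime → q ∉ Sig → H.ρ.IsUnramifiedAt q :=
    fun q hq hqS => h31 hp h.hp𝒪 hpSig hNS H q hq hqS
  have hunip : ∀ q ∈ Smin, q.Prime → q ≠ p → H.ρ.IsUnipotentOnInertiaAt q := by
    intro q hqS hq hqp
    refine h34 hp h.hp𝒪 hpSig hNS H q hq hqp
      (dvd_wilesLevel_of_mem hp h.hSmin hSigP q (hSig hqS) hqp) ?_
    intro hd
    have h2 := (hq.pow_dvd_iff_le_factorization hN0).mp hd
    rw [factorization_wilesLevel hp h.hSmin hSigP,
      if_pos (Finset.mem_erase.mpr ⟨hqp, hqS⟩),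
      if_neg (fun hh => (Finset.mem_sdiff.mp hh).2 hqS),
      if_neg (fun hh => hqp hh.2)] at h2
    omega
  -- the condition at `p`
  have hpc : pCond 𝒪 p t Sig H.ρ := by
    rcases ht with ⟨ht, -⟩ | ⟨ht, hso, hnf⟩
    · rw [pCond_flat_iff ht]
      refine ⟨hdetT, ?_, hunr⟩
      refine h32 hp h.hp2 h.hp𝒪 ?_ hpSig hNS H
      intro hd
      have h2 := (hp.pow_dvd_iff_le_factorization hN0 (k := 1)).mp (by simpa using hd)
      rw [factorization_wilesLevel hp h.hSmin hSigP,
        if_neg (Finset.notMem_erase p Smin),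
        if_neg (fun hh => (Finset.mem_sdiff.mp hh).2 h.hpSmin),
        if_neg (fun hh => hh.1 ht)] at h2
      omega
    · rw [pCond_sord_iff ht]
      refine ⟨hdetT, ?_, hunr⟩
      have htne : t ≠ .flat := by rw [ht]; exact fun h0 => PType.noConfusion h0
      have hN : p ∣ wilesLevel p t Smin Sig ∧ ¬ p ^ 2 ∣ wilesLevel p t Smin Sig :=
        ⟨dvd_wilesLevel_of_ne_flat hp htne, not_sq_dvd_wilesLevel hp h.hSmin hSigP h.hpSmin⟩
      have hι : IsLocalHom (ResidueField.map (algebraMap 𝒪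
          (CuspForm.heckeLocal (wilesLevel p t Smin Sig) (↑Sig : Set ℕ) 𝒪 θ))) := inferInstance
      have hfinT : Finite (ResidueField
          (CuspForm.heckeLocal (wilesLevel p t Smin Sig) (↑Sig : Set ℕ) 𝒪 θ)) :=
        Fermat.Agent.S59.H779.finite_residueField_of_base inferInstance H.residue_surjective
          inferInstance
      have hE : (GaloisRepAdic.ofResidualGaloisRep H.ρ.residual).IsEquiv
          (GaloisRepAdic.ofResidualGaloisRep (ρbar.baseChangeAlong (ResidueField.map (algebraMap 𝒪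
            (CuspForm.heckeLocal (wilesLevel p t Smin Sig) (↑Sig : Set ℕ) 𝒪 θ))))) := by
        obtain ⟨e⟩ := hres
        exact ⟨⟨e.toLinearEquiv, e.map_apply⟩⟩
      have hE' : (GaloisRepAdic.ofResidualGaloisRep (ρbar.baseChangeAlong
          (ResidueField.map (algebraMap 𝒪
            (CuspForm.heckeLocal (wilesLevel p t Smin Sig) (↑Sig : Set ℕ) 𝒪 θ))))).IsEquiv
          (GaloisRepAdic.ofResidualGaloisRep H.ρ.residual) := by
        obtain ⟨e⟩ := hE
        exact ⟨e.symm⟩
      have hordres : (GaloisRepAdic.ofResidualGaloisRep H.ρ.residual).IsOrdinaryAt p := by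
        have h1 : (GaloisRepAdic.ofResidualGaloisRep ρbar).IsOrdinaryAt p := hso.isOrdinaryAt
        have h2 := Fermat.Agent.S59.H659.isOrdinaryAt_baseChangeAlong _ hι h1
        exact Fermat.Agent.S59.H659.isOrdinaryAt_of_isEquiv hE' h2
      have hordT : H.ρ.IsOrdinaryAt p := h33 hp h.hp2 h.hp𝒪 hN hNS H hordres
      have hnotflat : ¬ (GaloisRepAdic.ofResidualGaloisRep H.ρ.residual).IsFlatAt p := by
        intro hf
        exact hnf (isFlatAt_of_baseChangeAlong p ρbar _
          (Fermat.Agent.S56.H966.isFlatAt_of_isEquiv hE hf))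
      exact hstrict p h.hp2 _ H.ρ hdetT hordT hnotflat
  exact ⟨{ integral := hint
           θ := θ
           isLocalRing := inferInstance
           isNoetherianRing := inferInstance
           isAdicComplete := inferInstance
           isLocalHom := inferInstance
           finite := inferInstance
           free := inferInstance
           H := H
           hπ := hHπ
           hres := hres
           hcond := ⟨hpc, hunip⟩ }, rfl⟩

end Fermat.Agent.S59.TW.H659
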